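/-
PROGRAMME I, block P, node P-A (helper16), file 1: the `ℤ[G]`-algebra needed by `rord_newPart`.
Elements of `ℤ[G]` are `G →₀ ℤ` as in main's `FF2/S32M/Ann.lean` (`fsAct`, `ltr`).
* `newElt s s' c u' = (δ_{s'} - c)(δ_s - 1) u'` and its action `fsAct_newElt`;
* `zsum a u = ∑ n_σ a(σ)` for a monoid homomorphism `a : G →* Module.End A M`, multiplicativity
  `zsum_ltr`, `zsum_newElt`.
Mathlib + main's `FF2/S32M/Ann.lean` only.
-/
import Mathlib
import Fermat.Agent.FF2.S32M.Ann

set_option autoImplicit false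

namespace Fermat.Agent.FF3.PA

open Fermat.Agent.FF2.S32M

variable {G : Type*} [Monoid G]

/-- `(δ_{s'} - c)(δ_s - 1) u' ∈ ℤ[G]`. -/
noncomputable def newElt (s s' : G) (c : ℤ) (u' : G →₀ ℤ) : G →₀ ℤ :=
  ltr (s' * s) u' - ltr s' u' - c • ltr s u' + c • u'

section Act

variable (X : Type*) [AddCommGroup X] [DistribMulAction G X]

theorem fsAct_zsmul (c : ℤ) (u : G →₀ ℤ) (x : X) : fsAct X (c • u) x = c • fsAct X u x := by
  rw [map_zsmul]
  rfl

theorem fsAct_nsmul (e : ℕ) (u : G →₀ ℤ) (x : X) : fsAct X (e • u) x = e • fsAct X u x := by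
  rw [map_nsmul]
  rfl

/-- The action of `(δ_{s'} - c)(δ_s - 1) u'`. -/
theorem fsAct_newElt (s s' : G) (c : ℤ) (u' : G →₀ ℤ) (x : X) :
    fsAct X (newElt s s' c u') x =
      s' • (s • fsAct X u' x - fsAct X u' x) - c • (s • fsAct X u' x - fsAct X u' x) := by
  simp only [newElt, map_add, map_sub, AddMonoidHom.add_apply, AddMonoidHom.sub_apply,
    fsAct_zsmul, fsAct_ltr, mul_smul, smul_sub]
  abel

end Act

section ZSum

variable {A : Type*} [CommRing A] {M : Type*} [AddCommGroup M] [Module A M]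
  (a : G →* Module.End A M)

/-- The action of `u ∈ ℤ[G]` through a monoid homomorphism `a : G →* End_A M`. -/
noncomputable def zsum (u : G →₀ ℤ) : Module.End A M := u.sum fun σ n => n • a σ

/-- `zsum` as an additive homomorphism. -/
noncomputable def zsumHom : (G →₀ ℤ) →+ Module.End A M :=
  Finsupp.liftAddHom (fun σ => zmultiplesHom (Module.End A M) (a σ))

theorem zsumHom_apply (u : G →₀ ℤ) : zsumHom a u = zsum a u := by
  rw [zsumHom, Finsupp.liftAddHom_apply, zsum]
  rfl

@[simp] theorem zsum_single (σ : G) (n : ℤ) : zsum a (Finsupp.single σ n) = n • a σ := by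
  simp [zsum]

theorem zsum_add (u v : G →₀ ℤ) : zsum a (u + v) = zsum a u + zsum a v := by
  rw [← zsumHom_apply, ← zsumHom_apply, ← zsumHom_apply, map_add]

theorem zsum_sub (u v : G →₀ ℤ) : zsum a (u - v) = zsum a u - zsum a v := by
  rw [← zsumHom_apply, ← zsumHom_apply, ← zsumHom_apply, map_sub]

theorem zsum_zsmul (c : ℤ) (u : G →₀ ℤ) : zsum a (c • u) = c • zsum a u := by
  rw [← zsumHom_apply, ← zsumHom_apply, map_zsmul]

theorem zsum_nsmul (e : ℕ) (u : G →₀ ℤ) : zsum a (e • u) = e • zsum a u := by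
  rw [← zsumHom_apply, ← zsumHom_apply, map_nsmul]

theorem zsum_ltr (g : G) (u : G →₀ ℤ) : zsum a (ltr g u) = a g * zsum a u := by
  induction u using Finsupp.induction_linear with
  | zero => simp [zsum]
  | add u v hu hv => rw [map_add, zsum_add, zsum_add, hu, hv, mul_add]
  | single h n => rw [ltr_single, zsum_single, zsum_single, map_mul, mul_smul_comm]

/-- The action of `(δ_{s'} - c)(δ_s - 1) u'`. -/
theorem zsum_newElt (s s' : G) (c : ℤ) (u' : G →₀ ℤ) :
    zsum a (newElt s s' c u') = (a s' - c • 1) * (a s - 1) * zsum a u' := by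
  simp only [newElt, zsum_add, zsum_sub, zsum_zsmul, zsum_ltr, map_mul]
  simp only [sub_mul, mul_sub, mul_one, one_mul, smul_mul_assoc, mul_assoc]
  abel

theorem zsum_apply (u : G →₀ ℤ) (v : M) : zsum a u v = u.sum fun σ n => n • a σ v := by
  simp [zsum, Finsupp.sum, LinearMap.sum_apply]

end ZSum

end Fermat.Agent.FF3.PA
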