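/-
PROGRAMME I, block P, node P-A (helper16), file 2: `rord_newPart` (NEW SIDE of the algebraic chain).
For `u'` killing `J₀(M')[p^k]` and `s, s'` in the inertia group at `P`, KILLS-NEW says that
`U := e • (δ_{s'} - c)(δ_s - 1) u'` (`c = cycloLift (p^k) s'`) kills `J₀(N)[p^k]`; main's
`S32M.ann_level` (with SAT from `S32Z.exists_sat_JZero`) transports this to `V ⧸ I V`, and
`c ≡ det ρ(s')` modulo `𝔪^k ⊆ I` (`BR2.det_eq_cycR`, `Cyc.cycR_sub_cycloLift_mem`).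
-/
import Fermat.Agent.FF3.P.Defs
import Fermat.Agent.FF3.PA.ZG
import Fermat.Agent.FF2.G0b.FiniteTorsion
import Fermat.Agent.BR2.DetCyclo

set_option autoImplicit false
set_option linter.unusedSectionVars false
set_option linter.style.haveILetI false

noncomputable section

set_option synthInstance.maxHeartbeats 400000

namespace Fermat.Agent.FF3.PA

open ModularCurve IsLocalRing CuspForm
open Fermat.Agent.FF2.S32M Fermat.Agent.FF2.Order Fermat.Agent.FF3.P Fermat.Agent.Pseudo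
  Fermat.Agent.X0

local notation "GQ" => (AlgebraicClosure ℚ ≃ₐ[ℚ] AlgebraicClosure ℚ)

/-! ### bridges between the three dialects of "`u ∈ ℤ[G_ℚ]` acts" -/

section Bridge

variable {A : Type} [CommRing A] [IsLocalRing A]

theorem actZ_eq_zsum (ρ : GaloisRepAdic A) (u : GQ →₀ ℤ) : actZ ρ u = zsum ρ.ρ u := rfl

/-- The level action of `u ∈ ℤ[G_ℚ]` on the class of `v` is the class of `actZ ρ u v`. -/
theorem sum_levelAction_mk (ρ : GaloisRepAdic A) (I : Ideal A) (u : GQ →₀ ℤ) (v : ρ.V) :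
    (u.sum fun σ n => n • ρ.levelAction I σ (Submodule.Quotient.mk v)) =
      Submodule.Quotient.mk (actZ ρ u v) := by
  rw [actZ_eq_zsum, zsum_apply]
  simp only [Finsupp.sum]
  have h0 : ∀ z : ρ.V, (Submodule.Quotient.mk z : ρ.V ⧸ (I • (⊤ : Submodule A ρ.V))) =
      (I • (⊤ : Submodule A ρ.V)).mkQ z := fun _ => rfl
  rw [h0 (∑ x ∈ u.support, u x • (ρ.ρ x) v), map_sum]
  refine Finset.sum_congr rfl fun σ _ => ?_
  rw [map_zsmul]
  rfl

/-- `Kills` in the dialect of `S32M.ann_level`. -/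
theorem sum_torsAct_eq_zero {N p k : ℕ} [NeZero N] [Fact p.Prime] {u : GQ →₀ ℤ}
    (hu : Kills N p k u) (x : ↥(Submodule.torsionBy ℤ (JZero N) ((p : ℤ) ^ k))) :
    (u.sum fun σ n => n • torsAct N p k σ x) = 0 := by
  have hx : (p ^ k) • (x : JZero N) = 0 := by
    have h0 : ((p ^ k : ℕ) : ℤ) • (x : JZero N) = 0 := by
      rw [Nat.cast_pow]
      exact (Submodule.mem_torsionBy_iff _ _).mp x.2
    rwa [natCast_zsmul] at h0
  have h := hu (x : JZero N) hx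
  rw [fsAct_apply] at h
  apply Subtype.ext
  rw [Submodule.coe_zero, ← h]
  simp only [Finsupp.sum]
  rw [Submodule.coe_sum]
  refine Finset.sum_congr rfl fun σ _ => ?_
  rw [Submodule.coe_smul, coe_torsAct]

end Bridge

/-! ### KILLS-NEW as a statement about one element of `ℤ[G_ℚ]` -/

section KillsNew

theorem kills_of_killsNewAt {N M' p : ℕ} [NeZero N] [NeZero M'] [hp : Fact p.Prime]
    {P : ValuationSubring Kb} {e : ℕ} (hgeo : KillsNewAt N M' p P e) (k : ℕ) {s s' : GQ}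
    (hs : s ∈ P.inertiaSubgroupIn ℚ) (hs' : s' ∈ P.inertiaSubgroupIn ℚ) {u' : GQ →₀ ℤ}
    (hu' : Kills M' p k u') :
    haveI : NeZero p := ⟨hp.out.ne_zero⟩
    Kills N p k (e • newElt s s' (Cyclo.cycloLift (p ^ k) s') u') := by
  haveI : NeZero p := ⟨hp.out.ne_zero⟩
  intro x hx
  rw [fsAct_nsmul, fsAct_newElt]
  exact hgeo k s s' hs hs' u' hu' x hx

end KillsNew

/-! ### the new side -/

section Main

variable {p : ℕ} {N : ℕ} [NeZero N] {S : Finset ℕ}
  {𝒪 : Type} [CommRing 𝒪] [IsDomain 𝒪] [IsDiscreteValuationRing 𝒪]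
  [IsAdicComplete (IsLocalRing.maximalIdeal 𝒪) 𝒪]
  {θ : CuspForm.heckeAlgebra N 2 (↑S : Set ℕ) →+* IsLocalRing.ResidueField 𝒪}
  {T : Type} [CommRing T] [IsLocalRing T] [IsNoetherianRing T]
  [IsAdicComplete (IsLocalRing.maximalIdeal T) T] [Algebra 𝒪 T] [IsLocalHom (algebraMap 𝒪 T)]
  [Module.Finite 𝒪 T] [Module.Free 𝒪 T]

/-- The determinant of the representation of a Hecke–Galois datum is the cyclotomic character. -/
theorem det_eq_cycR_datum [hpF : Fact p.Prime] (hpT : (p : T) ∈ maximalIdeal T)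
    (H : HeckeGaloisRepDatum N (↑S : Set ℕ) 𝒪 θ T) (σ : GQ) :
    LinearMap.det (H.ρ.ρ σ) = ((Cyc.cycR (maximalIdeal T) hpT σ : Tˣ) : T) := by
  classical
  refine Fermat.Agent.BR2.det_eq_cycR hpT H.ρ (S ∪ N.primeFactors) (fun ℓ hℓ hℓT P hP φ hφ => ?_) σ
  have hℓS : ℓ ∉ (↑S : Set ℕ) := fun h => hℓT (Finset.mem_union_left _ (Finset.mem_coe.mp h))
  have hℓN : ¬ ℓ ∣ N := fun h =>
    hℓT (Finset.mem_union_right _ (Nat.mem_primeFactors.mpr ⟨hℓ, h, NeZero.ne N⟩))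
  exact Fermat.Agent.BR2.det_eq_of_charpoly_eq H.ρ φ (H.charpoly_frob ℓ hℓ hℓN hℓS P hP φ hφ)

/-- `ROrd` on a vector, with `det` replaced by an integer congruent to it modulo `I`. -/
theorem rord_sub_mem {A : Type} [CommRing A] [IsLocalRing A] (ρ : GaloisRepAdic A) (I : Ideal A)
    (s s' : GQ) (c : ℤ) (hc : LinearMap.det (ρ.ρ s') - (c : A) ∈ I) (e : ℕ) (w : ρ.V) :
    e • ROrd ρ s s' w - e • ((ρ.ρ s' - c • 1) * (ρ.ρ s - 1)) w ∈ I • (⊤ : Submodule A ρ.V) := by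
  have h0 : ROrd ρ s s' - (ρ.ρ s' - c • 1) * (ρ.ρ s - 1) =
      ((c : A) - LinearMap.det (ρ.ρ s')) • (ρ.ρ s - 1) := by
    rw [ROrd, ← sub_mul]
    have : (ρ.ρ s' - LinearMap.det (ρ.ρ s') • 1) - (ρ.ρ s' - c • 1) =
        ((c : A) - LinearMap.det (ρ.ρ s')) • (1 : Module.End A ρ.V) := by
      rw [sub_smul, Int.cast_smul_eq_zsmul]
      abel
    rw [this, smul_mul_assoc, one_mul]
  have h1 : e • ROrd ρ s s' w - e • ((ρ.ρ s' - c • 1) * (ρ.ρ s - 1)) w =
      ((c : A) - LinearMap.det (ρ.ρ s')) • (e • (ρ.ρ s - 1) w) := by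
    rw [← smul_sub, ← LinearMap.sub_apply, h0, LinearMap.smul_apply, smul_comm]
  rw [h1]
  refine Submodule.smul_mem_smul ?_ Submodule.mem_top
  rw [← neg_sub]
  exact I.neg_mem hc

/-- **(P-A) the new side**. -/
theorem rord_newPart [Finite (ResidueField 𝒪)] [CharZero 𝒪] [hpF : Fact p.Prime]
    (hp𝒪 : (p : 𝒪) ∈ maximalIdeal 𝒪) (hNS : ∀ q : ℕ, q.Prime → q ∣ N → q ∈ S)
    (H : HeckeGaloisRepDatum N (↑S : Set ℕ) 𝒪 θ T) {M' : ℕ} [NeZero M']
    {P : ValuationSubring Kb} {e : ℕ} (hgeo : KillsNewAt N M' p P e)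
    (I : Ideal T) [Finite (T ⧸ I)] :
    ∃ k₀ : ℕ, ∀ k, k₀ ≤ k → ∀ s ∈ P.inertiaSubgroupIn ℚ, ∀ s' ∈ P.inertiaSubgroupIn ℚ,
      ∀ w ∈ newPart H.ρ M' p k I, e • ROrd H.ρ s s' w ∈ I • (⊤ : Submodule T H.ρ.V) := by
  haveI : NeZero p := ⟨hpF.out.ne_zero⟩
  have hpT : (p : T) ∈ maximalIdeal T := Fermat.Agent.FF2.S32G.natCast_mem_maximalIdeal hp𝒪
  by_cases hItop : I = ⊤
  · refine ⟨0, fun k _ s _ s' _ w _ => ?_⟩
    rw [hItop, Submodule.top_smul]
    exact Submodule.mem_top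
  obtain ⟨c₀, hc₀⟩ := Fermat.Agent.FF2.S32Z.exists_sat_JZero hpF.out hpT hNS H.π
  obtain ⟨n, hn⟩ := Fermat.Agent.FF2.S32X.exists_pow_maximalIdeal_le I
  refine ⟨n + c₀, fun k hk s hs s' hs' w hw => ?_⟩
  have hkn : maximalIdeal T ^ k ≤ I :=
    (Ideal.pow_le_pow_right (by omega : n ≤ k)).trans hn
  -- the map `w ↦ e • ROrd s s' w` is linear, so it suffices to treat the generators
  let F : H.ρ.V →ₗ[T] H.ρ.V := e • ROrd H.ρ s s'
  have hF : ∀ w, F w = e • ROrd H.ρ s s' w := fun w => rfl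
  rw [← hF]
  change w ∈ (I • (⊤ : Submodule T H.ρ.V)).comap F
  refine (sup_le (Submodule.span_le.mpr ?_) ?_ : newPart H.ρ M' p k I ≤ _) hw
  · -- generators `actZ ρ u' v`
    rintro _ ⟨u', hu', v, rfl⟩
    change F (actZ H.ρ u' v) ∈ I • (⊤ : Submodule T H.ρ.V)
    rw [hF]
    set c : ℤ := Cyclo.cycloLift (p ^ k) s' with hc
    -- the element of `ℤ[G_ℚ]` killing `J₀(N)[p^k]`
    have hU : Kills N p k (e • newElt s s' c u') := kills_of_killsNewAt hgeo k hs hs' hu'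
    have hann := ann_level hNS H I hItop k
      (Fermat.Agent.FF2.G0b.finite_torsionBy_JZero_pow N p k)
      (fun h₀ hh₀ => by
        have h1 := hc₀ k h₀ hh₀
        exact (Ideal.pow_le_pow_right (by omega : n ≤ k - c₀)).trans hn h1)
      (by
        rw [Nat.cast_pow]
        exact hkn (Ideal.pow_mem_pow hpT k))
      (e • newElt s s' c u') (fun x => sum_torsAct_eq_zero hU x)
      (Submodule.Quotient.mk v)
    rw [sum_levelAction_mk, Submodule.Quotient.mk_eq_zero, actZ_eq_zsum, zsum_nsmul,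
      zsum_newElt] at hann
    -- replace `c` by `det ρ(s')`
    have hdet : LinearMap.det (H.ρ.ρ s') - (c : T) ∈ I := by
      rw [det_eq_cycR_datum hpT H s']
      exact hkn (Cyc.cycR_sub_cycloLift_mem (maximalIdeal T) hpT k s')
    have h2 := rord_sub_mem H.ρ I s s' c hdet e (actZ H.ρ u' v)
    have h3 : e • ((H.ρ.ρ s' - c • 1) * (H.ρ.ρ s - 1)) (actZ H.ρ u' v) ∈
        I • (⊤ : Submodule T H.ρ.V) := by
      have : (e • ((H.ρ.ρ s' - c • 1) * (H.ρ.ρ s - 1) * zsum H.ρ.ρ u')) v =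
          e • ((H.ρ.ρ s' - c • 1) * (H.ρ.ρ s - 1)) (actZ H.ρ u' v) := by
        rw [actZ_eq_zsum]
        rfl
      rw [← this]
      exact hann
    have := Submodule.add_mem _ h2 h3
    rwa [sub_add_cancel] at this
  · -- `I V` is mapped into `I V`
    rw [← Submodule.map_le_iff_le_comap, Submodule.map_smul'']
    exact Submodule.smul_mono le_rfl le_top

end Main

end Fermat.Agent.FF3.PA
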