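/-
PROGRAMME I, block P, node P-D (helper16): `isOrdinaryAt_of_rord` (contract literal) and
`exists_inertia_det_sub_one_isUnit`.
`R_ord = 0` on the inertia group at every `P ∣ p` ⟹ `H.ρ.IsOrdinaryAt p`, by helper7's
`FF3.Ord7.exists_ordinary_line` with `ε := det ρ`; the element `s₀` of the inertia group with
`det ρ(s₀) - 1` a unit acts on `μ_p` by `ζ ↦ ζ²` (`BR3.WildCyclo.exists_inertia_apply_eq_pow`, `p ≠ 2`)
and `det ρ = cycR` (`PA.det_eq_cycR_datum`).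
-/
import Fermat.Agent.FF3.PA.Main
import Fermat.Agent.FF3.Ord7.OrdLine
import Fermat.Agent.BR3.WildCyclo

set_option autoImplicit false
set_option linter.unusedSectionVars false
set_option linter.unusedVariables false
set_option linter.style.haveILetI false

noncomputable section

set_option synthInstance.maxHeartbeats 400000

namespace Fermat.Agent.FF3.PA

open ModularCurve IsLocalRing CuspForm
open Fermat.Agent.FF3.P Fermat.Agent.Pseudo Fermat.Agent.X0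

local notation "GQ" => (AlgebraicClosure ℚ ≃ₐ[ℚ] AlgebraicClosure ℚ)

/-- An element of the inertia group at `P ∣ p` (`p` odd) whose cyclotomic character modulo `p` is
`2`. -/
theorem exists_inertia_cycloLift_eq_two {p : ℕ} [hpF : Fact p.Prime] (hp2 : p ≠ 2)
    (P : ValuationSubring Kb) (hP : P.LiesOverPrime p) :
    haveI : NeZero p := ⟨hpF.out.ne_zero⟩
    ∃ s₀ ∈ P.inertiaSubgroupIn ℚ, Cyclo.cycloLift (p ^ 1) s₀ = 2 := by
  haveI : NeZero p := ⟨hpF.out.ne_zero⟩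
  have hp := hpF.out
  obtain ⟨ζ, hζ⟩ := HasEnoughRootsOfUnity.exists_primitiveRoot Kb p
  have h2 : ¬ p ∣ 2 := fun h => hp2 ((Nat.prime_dvd_prime_iff_eq hp Nat.prime_two).mp h)
  obtain ⟨σ, hσ, hσζ, -⟩ := Fermat.Agent.BR3.WildCyclo.exists_inertia_apply_eq_pow hp hζ P hP h2
  refine ⟨σ, hσ, ?_⟩
  have hζ1 : ζ ^ (p ^ 1) = 1 := by rw [pow_one]; exact hζ.pow_eq_one
  have hspec := Cyclo.cycloN_spec (p ^ 1) σ hζ1
  rw [hσζ] at hspec
  have hlt : ((Cyclo.cycloN (p ^ 1) σ : (ZMod (p ^ 1))ˣ) : ZMod (p ^ 1)).val < p := by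
    have := ZMod.val_lt ((Cyclo.cycloN (p ^ 1) σ : (ZMod (p ^ 1))ˣ) : ZMod (p ^ 1))
    exact lt_of_lt_of_eq this (pow_one p)
  have h2p : 2 < p := lt_of_le_of_ne hp.two_le (Ne.symm hp2)
  have := hζ.pow_inj h2p hlt hspec
  unfold Cyclo.cycloLift
  rw [← this]
  rfl

section Datum

variable {p : ℕ} {N : ℕ} [NeZero N] {S : Finset ℕ}
  {𝒪 : Type} [CommRing 𝒪] [IsDomain 𝒪] [IsDiscreteValuationRing 𝒪]
  [IsAdicComplete (IsLocalRing.maximalIdeal 𝒪) 𝒪]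
  {θ : CuspForm.heckeAlgebra N 2 (↑S : Set ℕ) →+* IsLocalRing.ResidueField 𝒪}
  {T : Type} [CommRing T] [IsLocalRing T] [IsNoetherianRing T]
  [IsAdicComplete (IsLocalRing.maximalIdeal T) T] [Algebra 𝒪 T] [IsLocalHom (algebraMap 𝒪 T)]
  [Module.Finite 𝒪 T] [Module.Free 𝒪 T]

/-- **An inertia element at `P ∣ p` on which `det ρ - 1` is a unit** (`p` odd). -/
theorem exists_inertia_det_sub_one_isUnit (hp : p.Prime) (hp2 : p ≠ 2)
    (hp𝒪 : (p : 𝒪) ∈ maximalIdeal 𝒪) (H : HeckeGaloisRepDatum N (↑S : Set ℕ) 𝒪 θ T)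
    (P : ValuationSubring Kb) (hP : P.LiesOverPrime p) :
    ∃ s₀ ∈ P.inertiaSubgroupIn ℚ, IsUnit (LinearMap.det (H.ρ.ρ s₀) - 1) := by
  haveI hpF : Fact p.Prime := ⟨hp⟩
  haveI : NeZero p := ⟨hp.ne_zero⟩
  have hpT : (p : T) ∈ maximalIdeal T := Fermat.Agent.FF2.S32G.natCast_mem_maximalIdeal hp𝒪
  obtain ⟨s₀, hs₀, hc⟩ := exists_inertia_cycloLift_eq_two hp2 P hP
  refine ⟨s₀, hs₀, ?_⟩
  have h1 := Cyc.cycR_sub_cycloLift_mem (maximalIdeal T) hpT 1 s₀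
  rw [hc, pow_one, ← det_eq_cycR_datum hpT H s₀] at h1
  -- `det - 2 ∈ 𝔪`, so `det - 1 ∉ 𝔪`
  by_contra hnu
  have h2 : LinearMap.det (H.ρ.ρ s₀) - 1 ∈ maximalIdeal T := (mem_maximalIdeal _).mpr hnu
  have h3 : (1 : T) ∈ maximalIdeal T := by
    have := (maximalIdeal T).sub_mem h2 h1
    have e : LinearMap.det (H.ρ.ρ s₀) - 1 - (LinearMap.det (H.ρ.ρ s₀) - ((2 : ℤ) : T)) = 1 := by
      push_cast; ring
    rwa [e] at this
  exact (maximalIdeal.isMaximal T).ne_top ((Ideal.eq_top_iff_one _).mpr h3)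

/-- **(P-D)** `R_ord = 0` ⟹ the ordinary line (contract literal). -/
theorem isOrdinaryAt_of_rord [Finite (ResidueField 𝒪)] [CharZero 𝒪]
    (hp : p.Prime) (hp2 : p ≠ 2) (hp𝒪 : (p : 𝒪) ∈ maximalIdeal 𝒪)
    (hNS : ∀ q : ℕ, q.Prime → q ∣ N → q ∈ S)
    (H : HeckeGaloisRepDatum N (↑S : Set ℕ) 𝒪 θ T)
    (h : ∀ P : ValuationSubring Kb, P.LiesOverPrime p →
      ∀ s ∈ P.inertiaSubgroupIn ℚ, ∀ s' ∈ P.inertiaSubgroupIn ℚ, ROrd H.ρ s s' = 0) :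
    H.ρ.IsOrdinaryAt p := by
  intro P hP
  obtain ⟨s₀, hs₀, hu⟩ := exists_inertia_det_sub_one_isUnit hp hp2 hp𝒪 H P hP
  exact Fermat.Agent.FF3.Ord7.exists_ordinary_line H.ρ.finrank_eq H.ρ.ρ
    (P.decompositionSubgroup ℚ) (P.inertiaSubgroupIn ℚ)
    (Fermat.Agent.FF2.S33.inertia_conj_mem P) (fun σ => LinearMap.det (H.ρ.ρ σ))
    (fun s hs s' hs' => h P hP s hs s' hs') s₀ hs₀ hu rfl

end Datum

end Fermat.Agent.FF3.PA
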