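/-
PROGRAMME I, block P, node P-C, helper16: `rord_eq_zero_of` — the combination step.
From (P-A) `rord_newPart`, (P-B) `rord_mem_newPart` and `newPart_end_stable` (taken here as
explicit hypotheses in their contract literals) and the reducedness of `T`: `ROrd H.ρ s s' = 0`.
Every matrix entry `r` of `ROrd` satisfies `e * r² ∈ 𝔪ⁿ` for all `n` (`entry_sq_mem`), hence
`e * r² = 0` (Krull), `r² = 0` (`T` is `𝒪`-free, `𝒪` a domain of characteristic zero), `r = 0`.
-/
import Fermat.Agent.FF3.P.Defs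
import Fermat.Agent.FF3.P.EndStable

set_option autoImplicit false
set_option linter.unusedSectionVars false
set_option linter.style.haveILetI false

noncomputable section

set_option synthInstance.maxHeartbeats 400000

namespace Fermat.Agent.FF3.PA

open ModularCurve IsLocalRing CuspForm
open Fermat.Agent.FF3.P Fermat.Agent.X0

local notation "GQ" => (AlgebraicClosure ℚ ≃ₐ[ℚ] AlgebraicClosure ℚ)

variable {p : ℕ} {N : ℕ} [NeZero N] {S : Finset ℕ}
  {𝒪 : Type} [CommRing 𝒪] [IsDomain 𝒪] [IsDiscreteValuationRing 𝒪]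
  [IsAdicComplete (IsLocalRing.maximalIdeal 𝒪) 𝒪]
  {θ : CuspForm.heckeAlgebra N 2 (↑S : Set ℕ) →+* IsLocalRing.ResidueField 𝒪}
  {T : Type} [CommRing T] [IsLocalRing T] [IsNoetherianRing T]
  [IsAdicComplete (IsLocalRing.maximalIdeal T) T] [Algebra 𝒪 T] [IsLocalHom (algebraMap 𝒪 T)]
  [Module.Finite 𝒪 T] [Module.Free 𝒪 T]

/-- `T` has no `ℕ`-torsion: it is free over the domain `𝒪` of characteristic zero. -/
theorem natCast_mul_eq_zero [CharZero 𝒪] {e : ℕ} (he : e ≠ 0) {x : T} (h : (e : T) * x = 0) :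
    x = 0 := by
  have h1 : (e : 𝒪) • x = 0 := by
    rw [Algebra.smul_def, map_natCast]
    exact h
  have h2 : (e : 𝒪) ≠ 0 := Nat.cast_ne_zero.mpr he
  exact (smul_eq_zero.mp h1).resolve_left h2

/-- An element of all powers of the maximal ideal of `T` is zero. -/
theorem eq_zero_of_forall_mem_pow {x : T} (h : ∀ n : ℕ, x ∈ maximalIdeal T ^ n) : x = 0 := by
  have hH : IsHausdorff (maximalIdeal T) T := inferInstance
  refine hH.haus' x fun n => ?_
  rw [SModEq.zero, smul_eq_mul, Ideal.mul_top]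
  exact h n

/-- **(P-C) combination**: `R_ord = 0` from the new side (P-A), the old side (P-B), the
`End`-stability of `newPart` and the reducedness of `T`. -/
theorem rord_eq_zero_of [Finite (ResidueField 𝒪)] [CharZero 𝒪]
    (H : HeckeGaloisRepDatum N (↑S : Set ℕ) 𝒪 θ T) (hred : IsReduced T)
    (P : ValuationSubring Kb) {M' : ℕ} [NeZero M'] {e : ℕ} (he : e ≠ 0)
    (hEnd : ∀ (k : ℕ) (I : Ideal T) (f : Module.End T H.ρ.V) {w : H.ρ.V},
      w ∈ newPart H.ρ M' p k I → f w ∈ newPart H.ρ M' p k I)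
    (hA : ∀ (I : Ideal T) [Finite (T ⧸ I)], ∃ k₀ : ℕ, ∀ k, k₀ ≤ k →
      ∀ s ∈ P.inertiaSubgroupIn ℚ, ∀ s' ∈ P.inertiaSubgroupIn ℚ,
        ∀ w ∈ newPart H.ρ M' p k I, e • ROrd H.ρ s s' w ∈ I • (⊤ : Submodule T H.ρ.V))
    (hB : ∀ (I : Ideal T) [Finite (T ⧸ I)] (k : ℕ),
      ∀ s ∈ P.inertiaSubgroupIn ℚ, ∀ s' ∈ P.inertiaSubgroupIn ℚ, ∀ v : H.ρ.V,
        ROrd H.ρ s s' v ∈ newPart H.ρ M' p k I) :
    ∀ s ∈ P.inertiaSubgroupIn ℚ, ∀ s' ∈ P.inertiaSubgroupIn ℚ, ROrd H.ρ s s' = 0 := by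
  intro s hs s' hs'
  haveI : Finite (ResidueField T) := Fermat.Agent.FF2.S32G.finite_residueField H
  haveI : Finite (T ⧸ maximalIdeal T) := (inferInstance : Finite (ResidueField T))
  let b : Module.Basis (Fin 2) T H.ρ.V := Module.finBasisOfFinrankEq T H.ρ.V H.ρ.finrank_eq
  -- all matrix entries vanish
  have hentry : ∀ i j, LinearMap.toMatrix b b (ROrd H.ρ s s') i j = 0 := by
    intro i j
    set r := LinearMap.toMatrix b b (ROrd H.ρ s s') i j with hr
    have h1 : ∀ n : ℕ, (e : T) * r ^ 2 ∈ maximalIdeal T ^ n := by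
      intro n
      haveI : Finite (T ⧸ maximalIdeal T ^ n) :=
        Ideal.finite_quotient_pow (IsNoetherian.noetherian _) n
      obtain ⟨k₀, hk₀⟩ := hA (maximalIdeal T ^ n)
      exact Fermat.Agent.FF3.P.entry_sq_mem b (ROrd H.ρ s s')
        (newPart H.ρ M' p k₀ (maximalIdeal T ^ n))
        (maximalIdeal T ^ n) (fun f w hw => hEnd k₀ _ f hw) e
        (fun v => hB (maximalIdeal T ^ n) k₀ s hs s' hs' v)
        (fun w hw => hk₀ k₀ le_rfl s hs s' hs' w hw) i j
    have h2 : (e : T) * r ^ 2 = 0 := eq_zero_of_forall_mem_pow h1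
    have h3 : r ^ 2 = 0 := natCast_mul_eq_zero (𝒪 := 𝒪) he h2
    exact hred.eq_zero r ⟨2, h3⟩
  have hmat : LinearMap.toMatrix b b (ROrd H.ρ s s') = 0 := by
    ext i j
    exact hentry i j
  exact (LinearMap.toMatrix b b).injective (by rw [hmat, map_zero])

end Fermat.Agent.FF3.PA
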