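/-
PROGRAMME I, block P (helper16): the algebraic chain ASSEMBLED, with the still-open inputs as named
hypotheses.
* `isOrdinaryAt_of_geoIn` : GEO-IN at the level `N` + `IsReduced T` + the old side (P-B,
  `rord_mem_newPart`, as a hypothesis `hB` in its contract literal) ⟹ `H.ρ.IsOrdinaryAt p`.
  Uses (P-A) `rord_newPart`, `P.newPart_end_stable`, the combination `rord_eq_zero_of` and (P-D)
  `isOrdinaryAt_of_rord`.
* `isOrdinaryAt_of_geoIn_mul` : the same with GEO-IN given at all levels `M * p`, `p ∤ M`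
  (the output shape of `geoIn_of_torEps`), for `p ∣ N`, `p² ∤ N`.
-/
import Fermat.Agent.FF3.PA.PD
import Fermat.Agent.FF3.PA.RordZero
import Fermat.Agent.FF3.P.NewPart

set_option autoImplicit false
set_option linter.unusedSectionVars false
set_option linter.unusedVariables false
set_option linter.style.haveILetI false

noncomputable section

set_option synthInstance.maxHeartbeats 400000

namespace Fermat.Agent.FF3.PA

open ModularCurve IsLocalRing CuspForm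
open Fermat.Agent.FF3.P Fermat.Agent.X0

local notation "GQ" => (AlgebraicClosure ℚ ≃ₐ[ℚ] AlgebraicClosure ℚ)

variable {p : ℕ} {N : ℕ} [NeZero N] {S : Finset ℕ}
  {𝒪 : Type} [CommRing 𝒪] [IsDomain 𝒪] [IsDiscreteValuationRing 𝒪]
  [IsAdicComplete (IsLocalRing.maximalIdeal 𝒪) 𝒪]
  {θ : CuspForm.heckeAlgebra N 2 (↑S : Set ℕ) →+* IsLocalRing.ResidueField 𝒪}
  {T : Type} [CommRing T] [IsLocalRing T] [IsNoetherianRing T]
  [IsAdicComplete (IsLocalRing.maximalIdeal T) T] [Algebra 𝒪 T] [IsLocalHom (algebraMap 𝒪 T)]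
  [Module.Finite 𝒪 T] [Module.Free 𝒪 T]

/-- **The algebraic chain of block P**, from GEO-IN at the level `N`, the reducedness of `T` and the
old side (P-B). -/
theorem isOrdinaryAt_of_geoIn [Finite (ResidueField 𝒪)] [CharZero 𝒪] [hpF : Fact p.Prime]
    (hp2 : p ≠ 2) (hp𝒪 : (p : 𝒪) ∈ maximalIdeal 𝒪)
    (hNS : ∀ q : ℕ, q.Prime → q ∣ N → q ∈ S)
    (H : HeckeGaloisRepDatum N (↑S : Set ℕ) 𝒪 θ T)
    (hgeo : GeoIn N p) (hred : IsReduced T)
    (hB : ∀ {M' : ℕ} [NeZero M'], ¬ p ∣ M' → ∀ {P : ValuationSubring Kb}, P.LiesOverPrime p →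
      ∀ (I : Ideal T) [Finite (T ⧸ I)] (k : ℕ),
        ∀ s ∈ P.inertiaSubgroupIn ℚ, ∀ s' ∈ P.inertiaSubgroupIn ℚ, ∀ v : H.ρ.V,
          ROrd H.ρ s s' v ∈ newPart H.ρ M' p k I) :
    H.ρ.IsOrdinaryAt p := by
  refine isOrdinaryAt_of_rord hpF.out hp2 hp𝒪 hNS H (fun P hP => ?_)
  obtain ⟨M', hM', e, hpM', he, hkn⟩ := hgeo P hP
  haveI := hM'
  exact rord_eq_zero_of H hred P he
    (fun k I f w hw => Fermat.Agent.FF3.P.newPart_end_stable H.residual_absIrr f hw)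
    (fun I _ => rord_newPart hp𝒪 hNS H hkn I)
    (fun I _ k => hB hpM' hP I k)

/-- The same, with GEO-IN given at the levels `M * p`, `p ∤ M`. -/
theorem isOrdinaryAt_of_geoIn_mul [Finite (ResidueField 𝒪)] [CharZero 𝒪] [hpF : Fact p.Prime]
    (hp2 : p ≠ 2) (hp𝒪 : (p : 𝒪) ∈ maximalIdeal 𝒪) (hN : p ∣ N ∧ ¬ p ^ 2 ∣ N)
    (hNS : ∀ q : ℕ, q.Prime → q ∣ N → q ∈ S)
    (H : HeckeGaloisRepDatum N (↑S : Set ℕ) 𝒪 θ T)
    (hgeo : ∀ (M : ℕ) [NeZero M], ¬ p ∣ M → ∀ [NeZero (M * p)], GeoIn (M * p) p)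
    (hred : IsReduced T)
    (hB : ∀ {M' : ℕ} [NeZero M'], ¬ p ∣ M' → ∀ {P : ValuationSubring Kb}, P.LiesOverPrime p →
      ∀ (I : Ideal T) [Finite (T ⧸ I)] (k : ℕ),
        ∀ s ∈ P.inertiaSubgroupIn ℚ, ∀ s' ∈ P.inertiaSubgroupIn ℚ, ∀ v : H.ρ.V,
          ROrd H.ρ s s' v ∈ newPart H.ρ M' p k I) :
    H.ρ.IsOrdinaryAt p := by
  obtain ⟨M, hM⟩ := hN.1
  have hNM : N = M * p := by rw [hM, mul_comm]
  have hM0 : M ≠ 0 := by
    rintro rfl
    exact NeZero.ne N (by rw [hNM, zero_mul])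
  haveI : NeZero M := ⟨hM0⟩
  have hpM : ¬ p ∣ M := by
    rintro ⟨c, rfl⟩
    exact hN.2 ⟨c, by rw [hNM]; ring⟩
  subst hNM
  exact isOrdinaryAt_of_geoIn hp2 hp𝒪 hNS H (hgeo M hpM) hred hB

end Fermat.Agent.FF3.PA
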